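import Mathlib
import Fermat.Prelude.Def_LanglandsTunnell_WeightOneRealizationCarriers
import Fermat.Prelude.Def_FLTPrelim_ModularRep
import Fermat.Prelude.Def_FLTPrelim_Ramification

/-!
# Row LT -- BOARD v1 of the row-lead (helper17), OFF-MAIN

Frozen Props of the row + sorry-free tops.  Nothing here is on main.

RETIRED (falsity findings of helper446, helper681, helper391, helper670, helper437, helper130,
helper12 and others): the Prelude carriers `TunnellExistsForAttachedOctahedralData`,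
`WeightOneHolomorphicRealization` with a universally quantified datum, `LT17.DatumStatement`
and `LT17.top` of `Spec.lean`.  Do not prove them, do not cite them.

Cut (all Props below are TRUE statements of mathematics):

* `LTB.Hyp rho Psi`      : the hypotheses of the frozen S47.
* `LTB.Concl rho Psi`    : the conclusion of the frozen S47.
* `LTB.WallOut rho Psi`  : a CLASSICAL holomorphic cusp form of weight one on `Gamma1 N`,
  normalised, with the Hecke relations of S48 for a Dirichlet character `eps` at the primes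
  not dividing `N`, whose `a_p` equals `iota (tr Psi (rho Frob_p))` at the primes `p` not dividing
  `3 N` whose Frobenius lies in `Q8 = {g | det g = 1, g ^ 4 = 1}` (primes split completely in the
  sextic `S3`-field `E`).  NO integrality, NO condition at the other primes, NO level control.
* `LTB.WallC`   : `Hyp -> WallOut`             (THE WALL = automorphic input).
* `LTB.IdentC`  : `Hyp -> WallOut -> Concl`    (landed S48 + Chebotarev + Clifford + twist by
  `chi_{-3}` + depletion at the bad primes + integrality in `Z[sqrt -2]`; no automorphic input).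
* `LTB.top47`   : `IdentC -> WallC ->` frozen S47 (verbatim binders).   MILESTONE 1 (row 42).
* `LTB.Glue2`   : frozen S47 `->` every semistable `W` with irreducible `W[3]` is residually
  modular at 3 of SOME level.
* `LTB.LevelOpt`: residually modular at 3 of some level `->` conclusion of the frozen S50
  (level cube-free away from 3, condition at 9).
* `LTB.top50`   : `IdentC -> WallC -> Glue2 -> LevelOpt ->` frozen S50.   MILESTONE 2.
-/

set_option autoImplicit false

open AutomorphicForm FLT.ExplicitLift EisensteinWeightOne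
open WeierstrassCurve WeierstrassCurve.Affine WeierstrassCurve.Affine.Point
open CongruenceSubgroup
open scoped MatrixGroups
open scoped WeierstrassCurve.Affine

noncomputable section

namespace LTB

local notation "Γℚ" => (AlgebraicClosure ℚ ≃ₐ[ℚ] AlgebraicClosure ℚ)

/-- The hypotheses of the frozen S47. -/
structure Hyp (ρ : Γℚ →* GL (Fin 2) (ZMod 3))
    (Ψ : GL (Fin 2) (ZMod 3) →* GL (Fin 2) (ℤ√(-2))) : Prop where
  cont : Continuous ρ
  surj : Function.Surjective ρ
  det : ∀ σ : Γℚ, Matrix.GeneralLinearGroup.det (ρ σ) = modThreeCyclotomicChar σ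
  lift : ∀ g, Matrix.GeneralLinearGroup.map red (Ψ g) = g

/-- The conclusion of the frozen S47. -/
def Concl (ρ : Γℚ →* GL (Fin 2) (ZMod 3))
    (Ψ : GL (Fin 2) (ZMod 3) →* GL (Fin 2) (ℤ√(-2))) : Prop :=
  ∃ (N : ℕ) (_ : NeZero N) (b : ℕ → ℤ√(-2)),
    FormalHecke.IsEigensystem
      (fun ℓ => if ℓ ∣ N then 0 else ((chiNegThree ℓ : ℤ) : ℤ√(-2))) b ∧
    CuspForm.IsWeightOneChiNegThreeRealized N b ∧
    ∀ p : ℕ, p.Prime → ¬ p ∣ 3 * N →
      ∀ A : ValuationSubring (AlgebraicClosure ℚ), A.LiesOverPrime p →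
        ∀ σ : Γℚ, A.IsFrobeniusAt σ p →
          b p = ((Ψ (ρ σ) : GL (Fin 2) (ℤ√(-2))) : Matrix (Fin 2) (Fin 2) (ℤ√(-2))).trace

/-- Output of the wall: a classical weight-one cuspidal Hecke eigenform (shape of the hypotheses
of the landed S48) matching `Ψ ∘ ρ` at the primes whose Frobenius lies in `Q8`. -/
def WallOut (ρ : Γℚ →* GL (Fin 2) (ZMod 3))
    (Ψ : GL (Fin 2) (ZMod 3) →* GL (Fin 2) (ℤ√(-2))) : Prop :=
  ∃ (N : ℕ) (_ : NeZero N) (ε : DirichletCharacter ℂ N) (f : CuspForm (Gamma1 N) 1)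
    (ι : ℤ√(-2) →+* ℂ),
    ModularFormClass.qCoeff f 1 = 1 ∧
    (∀ p : ℕ, p.Prime → ¬ p ∣ N → ∀ n : ℕ,
        ModularFormClass.qCoeff f (p * n) +
            ε (p : ZMod N) * (if p ∣ n then ModularFormClass.qCoeff f (n / p) else 0) =
          ModularFormClass.qCoeff f p * ModularFormClass.qCoeff f n) ∧
    ∀ p : ℕ, p.Prime → ¬ p ∣ 3 * N →
      ∀ A : ValuationSubring (AlgebraicClosure ℚ), A.LiesOverPrime p →
        ∀ σ : Γℚ, A.IsFrobeniusAt σ p →
          Matrix.GeneralLinearGroup.det (ρ σ) = 1 → (ρ σ) ^ 4 = 1 →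
          ModularFormClass.qCoeff f p =
            ι (((Ψ (ρ σ) : GL (Fin 2) (ℤ√(-2))) : Matrix (Fin 2) (Fin 2) (ℤ√(-2))).trace)

/-- THE WALL (automorphic input): Langlands--Tunnell for `Ψ ∘ ρ`, weakened by the twist freedom
of the descent steps and stripped of every arithmetic normalisation. -/
def WallC : Prop :=
  ∀ (ρ : Γℚ →* GL (Fin 2) (ZMod 3)) (Ψ : GL (Fin 2) (ZMod 3) →* GL (Fin 2) (ℤ√(-2))),
    Hyp ρ Ψ → WallOut ρ Ψ

/-- IDENT (no automorphic input): landed S48 on the form of `WallOut`, Chebotarev, Clifford theory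
for `Q8 < GL2(F3)` (quotient `S3`), twist by `chi_{-3}`, depletion at the primes dividing the
level, coefficients in `Z[sqrt -2]`. -/
def IdentC : Prop :=
  ∀ (ρ : Γℚ →* GL (Fin 2) (ZMod 3)) (Ψ : GL (Fin 2) (ZMod 3) →* GL (Fin 2) (ℤ√(-2))),
    Hyp ρ Ψ → WallOut ρ Ψ → Concl ρ Ψ

/-- The frozen S47 as a Prop. -/
def S47Statement : Prop :=
  ∀ (ρ : Γℚ →* GL (Fin 2) (ZMod 3)) (_ : Continuous ρ) (_ : Function.Surjective ρ)
    (_ : ∀ σ : Γℚ, Matrix.GeneralLinearGroup.det (ρ σ) = modThreeCyclotomicChar σ)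
    (Ψ : GL (Fin 2) (ZMod 3) →* GL (Fin 2) (ℤ√(-2)))
    (_ : ∀ g, Matrix.GeneralLinearGroup.map red (Ψ g) = g),
    ∃ (N : ℕ) (_ : NeZero N) (b : ℕ → ℤ√(-2)),
      FormalHecke.IsEigensystem
        (fun ℓ => if ℓ ∣ N then 0 else ((chiNegThree ℓ : ℤ) : ℤ√(-2))) b ∧
      CuspForm.IsWeightOneChiNegThreeRealized N b ∧
      ∀ p : ℕ, p.Prime → ¬ p ∣ 3 * N →
        ∀ A : ValuationSubring (AlgebraicClosure ℚ), A.LiesOverPrime p →
          ∀ σ : Γℚ, A.IsFrobeniusAt σ p →
            b p = ((Ψ (ρ σ) : GL (Fin 2) (ℤ√(-2))) : Matrix (Fin 2) (Fin 2) (ℤ√(-2))).trace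

/-- MILESTONE 1: the frozen S47 from IDENT + WALL. -/
theorem top47 (hI : IdentC) (hW : WallC) : S47Statement :=
  fun ρ hρ hsurj hdet Ψ hΨ =>
    hI ρ Ψ ⟨hρ, hsurj, hdet, hΨ⟩ (hW ρ Ψ ⟨hρ, hsurj, hdet, hΨ⟩)

/-- The hypotheses of the frozen S50. -/
structure Hyp50 (W : WeierstrassCurve ℤ) : Prop where
  disc : W.Δ ≠ 0
  semistable : W.IsSemistableModel
  irred : W.ModRepIsIrreducible 3

/-- The conclusion of the frozen S50. -/
def Concl50 (W : WeierstrassCurve ℤ) : Prop :=
  ∃ M : ℕ, 0 < M ∧ W.IsResiduallyModularOfLevel 3 M ∧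
    (∀ q : ℕ, q.Prime → q ≠ 3 → ¬ q ^ 3 ∣ M) ∧
    (3 ^ 2 ∣ M →
      ∀ A : ValuationSubring (AlgebraicClosure ℚ), A.LiesOverPrime 3 →
        ∀ x : Submodule.torsionBy ℤ
            ((W.map (Int.castRingHom ℚ))⁄(AlgebraicClosure ℚ)).Point (3 : ℕ),
          (∀ σ ∈ A.inertiaSubgroupIn ℚ, σ • x = x) → x = 0)

/-- GLUE2: S47 gives residual modularity at 3 of SOME level (mod-3 representation of `W` in a
basis, surjectivity for semistable + irreducible, Weil pairing, product with the Eisenstein series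
`E_{1,chi_{-3}}`, landed S49). -/
def Glue2 : Prop :=
  S47Statement → ∀ W : WeierstrassCurve ℤ, Hyp50 W → W.IsResiduallyModular 3

/-- LEVELOPT: level optimisation in weight 2 modulo 3 (away from 3: the engine of row CAR3;
at 3: the condition at 9). -/
def LevelOpt : Prop :=
  ∀ W : WeierstrassCurve ℤ, Hyp50 W → W.IsResiduallyModular 3 → Concl50 W

/-- MILESTONE 2: the frozen S50 (verbatim binders). -/
theorem top50 (hI : IdentC) (hW : WallC) (hG : Glue2) (hL : LevelOpt)
    (W : WeierstrassCurve ℤ) (hΔ : W.Δ ≠ 0) (hW' : W.IsSemistableModel)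
    (h3 : W.ModRepIsIrreducible 3) :
    ∃ M : ℕ, 0 < M ∧ W.IsResiduallyModularOfLevel 3 M ∧
      (∀ q : ℕ, q.Prime → q ≠ 3 → ¬ q ^ 3 ∣ M) ∧
      (3 ^ 2 ∣ M →
        ∀ A : ValuationSubring (AlgebraicClosure ℚ), A.LiesOverPrime 3 →
          ∀ x : Submodule.torsionBy ℤ
              ((W.map (Int.castRingHom ℚ))⁄(AlgebraicClosure ℚ)).Point (3 : ℕ),
            (∀ σ ∈ A.inertiaSubgroupIn ℚ, σ • x = x) → x = 0) :=
  hL W ⟨hΔ, hW', h3⟩ (hG (top47 hI hW) W ⟨hΔ, hW', h3⟩)

end LTB

end
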