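import Fermat.Agent.LT.H17.Board
import Fermat.Agent.LT.H556.A6
import Fermat.Agent.LT.H701.IdentTop
import Fermat.Agent.LT.H19.Par556

/-!
# Row LT -- MASTER integrity check of the row-lead (helper17), OFF-MAIN

ONE import closure: the frozen S47 (as `LTB.S47Statement`) from the FOUR frozen wall leaves of
helper556 (`WallTop.lean` @0fa0be5a0), with IDENT closed by helper701 (plain S48 chain on main) and
the dictionary `A6_556` closed by helper556.

* `master_s47_of_four17`  : `A2_556 → A3c_556 → A3q_556 → PAR556 → LTB.S47Statement`.
* `master_s47_of_par2_17` : the same with `PAR556` replaced by the two adelic sub-leaves of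
  helper19 (`CentralEven556`, `MS556`).

Tower tops are added to `MasterTowers.lean` as the tower Specs freeze.
-/

set_option autoImplicit false

namespace Fermat.Agent.LT.H17

open Fermat.Agent.LT.H556.WT

/-- The frozen S47 from the four frozen wall leaves. -/
theorem master_s47_of_four17 (h2 : A2_556) (h3c : A3c_556) (h3q : A3q_556) (hpar : PAR556) :
    LTB.S47Statement :=
  Fermat.Agent.LT.H701.s47_of_wallC_h701 (wall_of_four556 h2 h3c h3q hpar)

/-- The same, with `PAR556` cut into the two adelic sub-leaves of helper19. -/
theorem master_s47_of_par2_17 (h2 : A2_556) (h3c : A3c_556) (h3q : A3q_556)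
    (hA : Fermat.Agent.LT.H19.CentralEven556) (hB : Fermat.Agent.LT.H19.MS556) :
    LTB.S47Statement :=
  master_s47_of_four17 h2 h3c h3q (Fermat.Agent.LT.H19.par556_of_two hA hB)

end Fermat.Agent.LT.H17
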