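import Fermat.Agent.LT.H17.Master
import Fermat.Agent.LT.A2.KernelTop
import Fermat.Agent.LT.T7.Spec
import Fermat.Agent.LT.T8.Spec
import Fermat.Agent.LT.T8.H468.Par

/-!
# Row LT -- MASTER of the towers (row-lead helper17), OFF-MAIN

ONE import closure: the frozen S47 (as `LTB.S47Statement`) from the tops of the towers which end in
a wall leaf (A2 -> `A2_556`, T7 -> `A3c_556`, `A3q_556`, T8 -> `PAR556`), with IDENT (helper701)
and the dictionary `A6_556` (helper556) closed.

v0: the hypotheses are the LEVEL-1 Props of the three towers (bytes of the tower Specs of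
helper950@17cdc7aa9, helper797 T7/Spec v1, helper19@6d7f2471b).  The lower towers (T1-T6, CFT)
enter through the `Closed.lean` files of the architects as they arrive.
-/

set_option autoImplicit false

namespace Fermat.Agent.LT.H17

open Fermat.Agent.LT.H556.WT

/-- The level-1 state of tower A2 (14 Props). -/
structure A2Level1 : Prop where
  galSeed : Fermat.Agent.LT.A2.GalSeedC
  torusChar : Fermat.Agent.LT.A2.TorusCharC
  weilLocal : Fermat.Agent.LT.A2.WeilLocalC
  poisson2 : Fermat.Agent.LT.A2.Poisson2C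
  hasseNorm : Fermat.Agent.LT.A2.HasseNormC
  thetaInv : Fermat.Agent.LT.A2.ThetaInvC
  liftEx : Fermat.Agent.LT.A2.LiftExC
  whitEx : Fermat.Agent.LT.A2.WhitExC
  exp : Fermat.Agent.LT.A2.ExpC
  inv : Fermat.Agent.LT.A2.InvC
  adeleQuot : Fermat.Agent.LT.A2.AdeleQuotC
  cuspOfWhit : Fermat.Agent.LT.A2.CuspOfWhitC
  meanOfWhit : Fermat.Agent.LT.A2.MeanOfWhitC
  neZeroOfWhit : Fermat.Agent.LT.A2.NeZeroOfWhitC

/-- The level-1 state of tower T7 (4 nodes + 8 leaves without trace formula; T7/Spec
sha256 76a196044a64). -/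
structure T7Level1 : Prop where
  desc : Fermat.Agent.LT.T7.DescAll
  descQ : Fermat.Agent.LT.T7.DescQ3All
  thin : Fermat.Agent.LT.T7.ThinC
  rigid : Fermat.Agent.LT.T7.RigidAll
  twist : Fermat.Agent.LT.T7.TwistAll
  conj : Fermat.Agent.LT.T7.ConjAll
  descTrivFrom : Fermat.Agent.LT.T7.DescTrivFromC
  midUniqueFrom : Fermat.Agent.LT.T7.MidUniqueFromC
  midStableFrom : Fermat.Agent.LT.T7.MidStableFromUniqueC
  dictEF : Fermat.Agent.LT.T7.DictEFC
  dictFQ : Fermat.Agent.LT.T7.DictFQC
  sqrt : Fermat.Agent.LT.T7.SqrtC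

/-- The level-1 state of tower T8 (4 Props). -/
structure T8Level1 : Prop where
  centralEven : Fermat.Agent.LT.H19.CentralEven556
  heckeSeq : Fermat.Agent.LT.T8.HeckeSeqC
  horo : Fermat.Agent.LT.T8.HoroC
  horoCoeff : Fermat.Agent.LT.T8.HoroCoeffC

theorem a2_556_of_level1_17 (h : A2Level1) : A2_556 :=
  Fermat.Agent.LT.A2.a2_top h.galSeed h.torusChar h.weilLocal h.poisson2 h.hasseNorm h.thetaInv
    h.liftEx h.whitEx h.exp h.inv h.adeleQuot h.cuspOfWhit h.meanOfWhit h.neZeroOfWhit

theorem a3_556_of_level1_17 (h : T7Level1) : A3c_556 ∧ A3q_556 :=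
  Fermat.Agent.LT.T7.top h.desc h.descQ h.thin h.rigid h.twist h.conj h.descTrivFrom
    h.midUniqueFrom h.midStableFrom h.dictEF h.dictFQ h.sqrt

theorem par556_of_level1_17 (h : T8Level1) : PAR556 :=
  Fermat.Agent.LT.T8.top h.centralEven h.heckeSeq h.horo h.horoCoeff

/-- **MASTER v0**: the frozen S47 from the level-1 Props of the towers A2, T7, T8. -/
theorem master_s47_of_level1_17 (hA2 : A2Level1) (hT7 : T7Level1) (hT8 : T8Level1) :
    LTB.S47Statement :=
  master_s47_of_four17 (a2_556_of_level1_17 hA2) (a3_556_of_level1_17 hT7).1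
    (a3_556_of_level1_17 hT7).2 (par556_of_level1_17 hT8)

/-! ## State 14:00Z: tower T8 is CLOSED (`par556_468`, helper468 + helper19/47/51/864) -/

/-- The frozen S47 from the THREE remaining wall leaves. -/
theorem master_s47_of_three17 (h2 : A2_556) (h3c : A3c_556) (h3q : A3q_556) :
    LTB.S47Statement :=
  master_s47_of_four17 h2 h3c h3q Fermat.Agent.LT.T8.H468.par556_468

/-- **MASTER v1**: the frozen S47 from the level-1 Props of the towers A2 and T7. -/
theorem master_s47_of_A2_T7_17 (hA2 : A2Level1) (hT7 : T7Level1) : LTB.S47Statement :=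
  master_s47_of_three17 (a2_556_of_level1_17 hA2) (a3_556_of_level1_17 hT7).1
    (a3_556_of_level1_17 hT7).2

end Fermat.Agent.LT.H17
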